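import Fermat.Agent.S37x.FFk.H19_FFk
import Fermat.Agent.S37x.Desc.H28_RedDesc
import Fermat.Agent.S37x.FFL.H9_Top

/-!
# S37, the level-`N` route (helper19): `StRed N A` from `StRedOne M A`, `N ∣ M`, `ℓ ∤ M`

Wiring of helper28's `[RED-DESC]` (`h28_stRed_desc`) with helper9's `[FFL]` (`h9_stFFL`) and
`[FFk]` (`h19_stFFk_of_redOne`).
-/

set_option autoImplicit false
set_option synthInstance.maxHeartbeats 400000
set_option maxHeartbeats 1000000

open AlgebraicCurve ModularCurve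

namespace Fermat.Agent.S37x.FFk.H19

/-- **`StRed N A` from `StRedOne M A`**, `N ∣ M`, `ℓ ∤ M`: the place reduction at level `N`
exists as soon as the place reduction at ONE auxiliary level `M` (a multiple of `N`, prime to
`ℓ`) exists with `[U1]` and `[SEP-ONE]`. -/
theorem h19_stRed_of_redOne (A : ValuationSubring (AlgebraicClosure ℚ)) {ℓ : ℕ} (hℓ : ℓ.Prime)
    (hA : A.LiesOverPrime ℓ) (N M : ℕ) [NeZero N] [NeZero M] (hNM : N ∣ M) (hℓM : ¬ ℓ ∣ M)
    (hM : Fermat.Agent.S37x.Asm.StRedOne M A) : Fermat.Agent.S37x.Asm.StRed N A :=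
  Fermat.Agent.S37x.Desc.H28.h28_stRed_desc A hℓ hA N M (fun h' => hℓM (h'.trans hNM)) hNM hM
    (Fermat.Agent.S37x.FFL.H9.h9_stFFL N M hNM) (h19_stFFk_of_redOne A hℓ hA N M hNM hℓM hM)

end Fermat.Agent.S37x.FFk.H19
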