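import Fermat.Agent.S37x.FFk.H19_Res
import Fermat.Agent.S18x.E.H29_StConst
import Fermat.Agent.S18x.E.H12_Div
import Fermat.Agent.S18x.E.H12_LiftFinal
import Fermat.Agent.S18x.Dict.H23_Dvr
import Fermat.Prelude.Def_ModularCurve_ReductionModL
import Fermat.Agent.S37x.Asm.DefsLeaves

/-!
# S37 [RED-M] (deg) + `HasPrincipalDivisors k F̄_M` (helper19)

`A` a valuation subring of `ℚ̄`, `k := ResidueField A`, `F̄_M := modularFunctionFieldFullC k M`.

* (k1) `h19_isAlgClosed_res A : IsAlgClosed k`, `h19_charP_res`, `h19_perfectField_res`;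
* (k2) `h19_deg_eq_one_full` : every place of `modularFunctionFieldFullC k M` over an algebraically
  closed field `k` (ANY characteristic) has degree one; `h19_deg_eq_one_res` for `k = A / 𝔪`;
  `h19_deg_eq_one_bar` for `ℚ̄`;
* (deg) `h19_red_deg` : the degree clause of `IsPlaceReductionModL` holds for EVERY map `r`;
  `h19_isPlaceReductionModL_of_cons` : so `IsPlaceReductionModL A M r` is its second clause;
* (k5) `h19_hasPrincipalDivisors_of_cons`, `h19_hasPrincipalDivisors_of_red` :
  `HasPrincipalDivisors k F̄_M` from a place reduction at level `M`;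
* finiteness of the fibres: `h19_finite_pos`, `h19_finite_neg`, `h19_finite_jbarAt`,
  `h19_finite_jbar_pole`.
-/

set_option autoImplicit false
set_option linter.style.haveILetI false
set_option linter.unusedSectionVars false
set_option synthInstance.maxHeartbeats 400000
set_option maxHeartbeats 1000000

open HahnSeries AlgebraicCurve IntermediateField ModularCurve

noncomputable section

namespace Fermat.Agent.S37x.FFk.H19

section AnyField

variable (k : Type) [Field k] [IsAlgClosed k] (M : ℕ) [NeZero M]

/-- **(k2)** every place of `k(j_d : d ∣ M)` over an algebraically closed field `k` (any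
characteristic) has degree one. -/
theorem h19_deg_eq_one_full (Q : Place k (modularFunctionFieldFullC k M)) : Q.deg = 1 := by
  haveI := Fermat.Agent.S18x.E.H29.finDimC k M
  exact h19_deg_eq_one (Fermat.Agent.S28.Asm.jbFull k M)
    (Fermat.Agent.S18x.E.H29.transcendental_jbFull k M) Q

/-- **(k2)** the residue field of every place of `k(j_d : d ∣ M)` is `k`. -/
theorem h19_residue_surjective_full (Q : Place k (modularFunctionFieldFullC k M)) :
    Function.Surjective (algebraMap k Q.ResidueField) := by
  haveI := Fermat.Agent.S18x.E.H29.finDimC k M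
  exact h19_residue_surjective (Fermat.Agent.S28.Asm.jbFull k M)
    (Fermat.Agent.S18x.E.H29.transcendental_jbFull k M) Q

end AnyField

section Res

variable (A : ValuationSubring (AlgebraicClosure ℚ)) (M : ℕ) [NeZero M]

/-- **(k1)** the residue field of a valuation subring of `ℚ̄` is algebraically closed. -/
theorem h19_isAlgClosed_res : IsAlgClosed (IsLocalRing.ResidueField A) :=
  h19_isAlgClosed_residueField A

/-- **(k1)** the residue field has characteristic `ℓ`. -/
theorem h19_charP_res {ℓ : ℕ} (hℓ : ℓ.Prime) (hA : A.LiesOverPrime ℓ) :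
    CharP (IsLocalRing.ResidueField A) ℓ :=
  Fermat.Agent.S18x.Dict.H23.h23_charP_residueField' hℓ A hA

/-- **(k1)** the residue field is perfect. -/
theorem h19_perfectField_res : PerfectField (IsLocalRing.ResidueField A) :=
  haveI := h19_isAlgClosed_res A
  inferInstance

/-- **(k2)** every place of `F̄_M` has degree one. -/
theorem h19_deg_eq_one_res
    (Q : Place (IsLocalRing.ResidueField A)
      (modularFunctionFieldFullC (IsLocalRing.ResidueField A) M)) : Q.deg = 1 :=
  haveI := h19_isAlgClosed_res A
  h19_deg_eq_one_full _ M Q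

/-- every place of `F_M` over `ℚ̄` has degree one. -/
theorem h19_deg_eq_one_bar (P : Place (AlgebraicClosure ℚ) (modularFunctionFieldBar M)) :
    P.deg = 1 := by
  haveI := Fermat.Agent.S24.Final.finiteDimensional_jF (K := AlgebraicClosure ℚ)
    Fermat.Agent.S18x.E.H12.h12_embQbar M
  exact h19_deg_eq_one (Fermat.Agent.S24.Final.jF (AlgebraicClosure ℚ) M)
    (Fermat.Agent.S24.Final.transcendental_jF (AlgebraicClosure ℚ) M) P

variable {A M}

/-- **(deg)** the degree clause of `IsPlaceReductionModL` holds for EVERY map of places. -/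
theorem h19_red_deg
    (r : Place (AlgebraicClosure ℚ) (modularFunctionFieldBar M) →
      Place (IsLocalRing.ResidueField A)
        (modularFunctionFieldFullC (IsLocalRing.ResidueField A) M))
    (P : Place (AlgebraicClosure ℚ) (modularFunctionFieldBar M)) : (r P).deg = P.deg := by
  rw [h19_deg_eq_one_res A M (r P), h19_deg_eq_one_bar M P]

/-- **(deg)** `IsPlaceReductionModL A M r` is its second clause (conservation). -/
theorem h19_isPlaceReductionModL_of_cons
    (r : Place (AlgebraicClosure ℚ) (modularFunctionFieldBar M) →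
      Place (IsLocalRing.ResidueField A)
        (modularFunctionFieldFullC (IsLocalRing.ResidueField A) M))
    (hcons : ∀ (y : LaurentSeries A)
      (hy : coeffMap A.subtype y ∈ modularFunctionFieldBar M)
      (hyk : coeffMap (IsLocalRing.residue A) y ∈
        modularFunctionFieldFullC (IsLocalRing.ResidueField A) M),
      coeffMap (IsLocalRing.residue A) y ≠ 0 →
        ∀ D : Divisor (AlgebraicClosure ℚ) (modularFunctionFieldBar M),
          (∀ P, D P = P.ord (⟨coeffMap A.subtype y, hy⟩ : modularFunctionFieldBar M)) →
            ∀ Q, Finsupp.mapDomain r D Q =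
              Q.ord (⟨coeffMap (IsLocalRing.residue A) y, hyk⟩ :
                modularFunctionFieldFullC (IsLocalRing.ResidueField A) M)) :
    IsPlaceReductionModL A M r :=
  ⟨h19_red_deg r, hcons⟩

/-- **(k5)** `HasPrincipalDivisors k F̄_M` from the conservation clause of a place reduction. -/
theorem h19_hasPrincipalDivisors_of_cons
    (r : Place (AlgebraicClosure ℚ) (modularFunctionFieldBar M) →
      Place (IsLocalRing.ResidueField A)
        (modularFunctionFieldFullC (IsLocalRing.ResidueField A) M))
    (hcons : ∀ (y : LaurentSeries A)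
      (hy : coeffMap A.subtype y ∈ modularFunctionFieldBar M)
      (hyk : coeffMap (IsLocalRing.residue A) y ∈
        modularFunctionFieldFullC (IsLocalRing.ResidueField A) M),
      coeffMap (IsLocalRing.residue A) y ≠ 0 →
        ∀ D : Divisor (AlgebraicClosure ℚ) (modularFunctionFieldBar M),
          (∀ P, D P = P.ord (⟨coeffMap A.subtype y, hy⟩ : modularFunctionFieldBar M)) →
            ∀ Q, Finsupp.mapDomain r D Q =
              Q.ord (⟨coeffMap (IsLocalRing.residue A) y, hyk⟩ :
                modularFunctionFieldFullC (IsLocalRing.ResidueField A) M)) :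
    HasPrincipalDivisors (IsLocalRing.ResidueField A)
      (modularFunctionFieldFullC (IsLocalRing.ResidueField A) M) := by
  refine ⟨fun f hf => ?_⟩
  have hf0 : (f : LaurentSeries (IsLocalRing.ResidueField A)) ≠ 0 := fun h =>
    hf (Subtype.ext h)
  obtain ⟨y, hy, hyf⟩ := Fermat.Agent.S18x.E.H12.stLift A M f.1 f.2 hf0
  have hyk : coeffMap (IsLocalRing.residue A) y ∈
      modularFunctionFieldFullC (IsLocalRing.ResidueField A) M := by
    rw [hyf]
    exact f.2
  have hyne : coeffMap (IsLocalRing.residue A) y ≠ 0 := by
    rw [hyf]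
    exact hf0
  have hy0 : (⟨coeffMap A.subtype y, hy⟩ : modularFunctionFieldBar M) ≠ 0 := by
    intro h
    have h1 : coeffMap A.subtype y = 0 := congrArg Subtype.val h
    have h2 : y = 0 := by
      ext n
      have h3 := congrArg (fun z => z.coeff n) h1
      simp only [coeffMap_coeff] at h3
      have h4 : ((y.coeff n : A) : AlgebraicClosure ℚ) = 0 := by simpa using h3
      simpa using h4
    apply hyne
    rw [h2, map_zero]
  obtain ⟨D, hD, hdeg⟩ :=
    (Fermat.Agent.S18x.E.H12.h12_hasPrincipalDivisors_bar M).exists_divisor _ hy0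
  refine ⟨Finsupp.mapDomain r D, fun Q => ?_, ?_⟩
  · rw [hcons y hy hyk hyne D hD Q]
    congr 1
    exact Subtype.ext hyf
  · rw [degree_mapDomain_of_deg_eq (h19_red_deg r), hdeg]

/-- **(k5)** `HasPrincipalDivisors k F̄_M` from a place reduction at level `M`. -/
theorem h19_hasPrincipalDivisors_of_red
    (hr : ∃ r, IsPlaceReductionModL A M r) :
    HasPrincipalDivisors (IsLocalRing.ResidueField A)
      (modularFunctionFieldFullC (IsLocalRing.ResidueField A) M) := by
  obtain ⟨r, hr⟩ := hr
  exact h19_hasPrincipalDivisors_of_cons r hr.2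

end Res

section Fibres

variable {k F : Type*} [Field k] [Field F] [Algebra k F] [HasPrincipalDivisors k F]

/-- a non-zero function has finitely many zeros and poles. -/
theorem h19_finite_ord_ne (f : F) (hf : f ≠ 0) : {Q : Place k F | Q.ord f ≠ 0}.Finite := by
  obtain ⟨D, hD, -⟩ := HasPrincipalDivisors.exists_divisor (K := k) f hf
  refine D.support.finite_toSet.subset fun Q hQ => ?_
  rw [Finset.mem_coe, Finsupp.mem_support_iff, hD]
  exact hQ

/-- a non-zero function has finitely many zeros. -/
theorem h19_finite_pos (f : F) (hf : f ≠ 0) : {Q : Place k F | 0 < Q.ord f}.Finite :=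
  (h19_finite_ord_ne f hf).subset fun _ hQ => (ne_of_gt hQ)

/-- a function has finitely many poles. -/
theorem h19_finite_neg (f : F) : {Q : Place k F | Q.ord f < 0}.Finite := by
  by_cases hf : f = 0
  · subst hf
    convert Set.finite_empty
    ext Q
    simp
  · exact (h19_finite_ord_ne f hf).subset fun _ hQ => (ne_of_lt hQ)

end Fibres

section JFibres

variable (A : ValuationSubring (AlgebraicClosure ℚ)) (M : ℕ) [NeZero M]

/-- `Asm.jk A M` is the `j`-function `jbFull k M` of S28. -/
theorem h19_jk_eq : Fermat.Agent.S37x.Asm.jk A M =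
    Fermat.Agent.S28.Asm.jbFull (IsLocalRing.ResidueField A) M := rfl

/-- `j̄` is transcendental over `k`. -/
theorem h19_transcendental_jk :
    Transcendental (IsLocalRing.ResidueField A) (Fermat.Agent.S37x.Asm.jk A M) :=
  Fermat.Agent.S18x.E.H29.transcendental_jbFull (IsLocalRing.ResidueField A) M

/-- `j̄ - c ≠ 0`. -/
theorem h19_jk_sub_ne_zero (c : IsLocalRing.ResidueField A) :
    Fermat.Agent.S37x.Asm.jk A M - algebraMap (IsLocalRing.ResidueField A)
      (modularFunctionFieldFullC (IsLocalRing.ResidueField A) M) c ≠ 0 := by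
  intro h
  apply h19_transcendental_jk A M
  rw [sub_eq_zero] at h
  rw [h]
  exact isAlgebraic_algebraMap c

variable [HasPrincipalDivisors (IsLocalRing.ResidueField A)
  (modularFunctionFieldFullC (IsLocalRing.ResidueField A) M)]

/-- **finiteness of the `j̄`-fibres**: finitely many places of `F̄_M` lie over `j̄ = c`. -/
theorem h19_finite_jbarAt (c : IsLocalRing.ResidueField A) :
    {Q : Place (IsLocalRing.ResidueField A)
      (modularFunctionFieldFullC (IsLocalRing.ResidueField A) M) |
        Fermat.Agent.S37x.Asm.JbarAt Q c}.Finite :=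
  h19_finite_pos _ (h19_jk_sub_ne_zero A M c)

/-- **finiteness of the cusps**: finitely many places of `F̄_M` are poles of `j̄`. -/
theorem h19_finite_jbar_pole :
    {Q : Place (IsLocalRing.ResidueField A)
      (modularFunctionFieldFullC (IsLocalRing.ResidueField A) M) |
        Q.ord (Fermat.Agent.S37x.Asm.jk A M) < 0}.Finite :=
  h19_finite_neg _

/-- finitely many places of `F̄_M` lie over a finite set of values of `j̄`. -/
theorem h19_finite_jbarAt_finset (T : Finset (IsLocalRing.ResidueField A)) :
    {Q : Place (IsLocalRing.ResidueField A)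
      (modularFunctionFieldFullC (IsLocalRing.ResidueField A) M) |
        ∃ c ∈ T, Fermat.Agent.S37x.Asm.JbarAt Q c}.Finite := by
  have h : {Q : Place (IsLocalRing.ResidueField A)
      (modularFunctionFieldFullC (IsLocalRing.ResidueField A) M) |
        ∃ c ∈ T, Fermat.Agent.S37x.Asm.JbarAt Q c} =
      ⋃ c ∈ T, {Q | Fermat.Agent.S37x.Asm.JbarAt Q c} := by
    ext Q
    simp
  rw [h]
  exact Set.Finite.biUnion T.finite_toSet fun c _ => h19_finite_jbarAt A M c

end JFibres

end Fermat.Agent.S37x.FFk.H19
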