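import Mathlib
import Fermat.Prelude.Def_AlgebraicCurve_DivisorPushPull
import Fermat.Agent.S37x.FF.H23_FundId

/-!
# S37 [FFk] (helper19), part 2: generic facts for a finite separable extension `F'/F` of function
fields over `K` (any characteristic)

* `h19_exists_place_above` : the restriction of places `Place K F' → Place K F` is surjective;
* `h19_hasPrincipalDivisors_down` : `HasPrincipalDivisors K F'` implies
  `HasPrincipalDivisors K F` (finite support by surjectivity of the restriction, degree zero by
  the fundamental identity).
-/

set_option autoImplicit false
set_option linter.style.haveILetI false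
set_option linter.unusedSectionVars false

open AlgebraicCurve IsDedekindDomain

noncomputable section

namespace Fermat.Agent.S37x.FFk.H19

open Fermat.Agent.S24.Alg Fermat.Agent.S37x.FF.H23

variable {K F F' : Type*} [Field K] [Field F] [Field F'] [Algebra K F] [Algebra K F']
  [Algebra F F'] [IsScalarTower K F F'] [FiniteDimensional F F'] [Algebra.IsSeparable F F']

/-- **The restriction of places is surjective** (finite separable extension). -/
theorem h19_exists_place_above (v : Place K F) : ∃ w : Place K F', w.restrict F = v := by
  letI : Algebra v.toValuationSubring F' :=
    ((algebraMap F F').comp (algebraMap v.toValuationSubring F)).toAlgebra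
  haveI : IsScalarTower v.toValuationSubring F F' := IsScalarTower.of_algebraMap_eq fun _ => rfl
  haveI : FaithfulSMul v.toValuationSubring F' :=
    (faithfulSMul_iff_algebraMap_injective v.toValuationSubring F').mpr
      ((algebraMap F F').injective.comp Subtype.val_injective)
  haveI : IsDedekindDomain (integralClosure v.toValuationSubring F') :=
    integralClosure.isDedekindDomain v.toValuationSubring F F'
  haveI : IsFractionRing (integralClosure v.toValuationSubring F') F' :=
    integralClosure.isFractionRing_of_finite_extension F F'
  haveI : Module.Finite v.toValuationSubring (integralClosure v.toValuationSubring F') :=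
    IsIntegralClosure.finite v.toValuationSubring F F' (integralClosure v.toValuationSubring F')
  letI : Algebra K (integralClosure v.toValuationSubring F') :=
    ((algebraMap v.toValuationSubring (integralClosure v.toValuationSubring F')).comp
      (algebraMap K v.toValuationSubring)).toAlgebra
  haveI : IsScalarTower K v.toValuationSubring (integralClosure v.toValuationSubring F') :=
    IsScalarTower.of_algebraMap_eq fun _ => rfl
  haveI : IsScalarTower K (integralClosure v.toValuationSubring F') F' :=
    IsScalarTower.of_algebraMap_eq fun a => by
      rw [IsScalarTower.algebraMap_apply K F F']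
      rfl
  haveI : (IsLocalRing.maximalIdeal v.toValuationSubring).IsMaximal :=
    IsLocalRing.maximalIdeal.isMaximal _
  obtain ⟨q⟩ : Nonempty ((IsLocalRing.maximalIdeal v.toValuationSubring).primesOver
      (integralClosure v.toValuationSubring F')) :=
    inferInstance
  exact ⟨placeOfPrime K ((h23_primeEquiv v (integralClosure v.toValuationSubring F')).symm q),
    h23_restrict_placeOfPrime v _⟩

/-- **Principal divisors descend** along a finite separable extension: if every non-zero
function of `F'` has a divisor of degree zero, so has every non-zero function of `F`. -/
theorem h19_hasPrincipalDivisors_down [HasPrincipalDivisors K F'] : HasPrincipalDivisors K F := by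
  classical
  haveI : FundamentalIdentity K F F' := h23_fundamentalIdentity
  refine ⟨fun f hf => ?_⟩
  have hf' : algebraMap F F' f ≠ 0 := by simpa using hf
  obtain ⟨D', hD', hdeg'⟩ := HasPrincipalDivisors.exists_divisor (K := K) (algebraMap F F' f) hf'
  -- the divisor of `f`
  have hsupp : ∀ v : Place K F, v.ord f ≠ 0 →
      v ∈ D'.support.image (fun w : Place K F' => w.restrict F) := by
    intro v hv
    obtain ⟨w, hw⟩ := h19_exists_place_above (F' := F') v
    rw [Finset.mem_image]
    refine ⟨w, ?_, hw⟩
    rw [Finsupp.mem_support_iff, hD', w.ord_restrict f, hw]
    have he : (0 : ℤ) < (Place.ramificationIndex (F := F) w : ℤ) := by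
      exact_mod_cast w.ramificationIndex_pos (F := F)
    exact mul_ne_zero he.ne' hv
  set D : Divisor K F :=
    Finsupp.onFinset (D'.support.image (fun w : Place K F' => w.restrict F))
      (fun v => v.ord f) hsupp with hD
  have hDv : ∀ v : Place K F, D v = v.ord f := fun v => by
    rw [hD, Finsupp.onFinset_apply]
  refine ⟨D, hDv, ?_⟩
  have hpull : Divisor.pullback F' D = D' := by
    ext w
    rw [Divisor.pullback_apply_eq_ord hDv, hD']
  have h1 := Divisor.degree_pullback (F' := F') D
  rw [hpull, hdeg'] at h1
  have hn : (Module.finrank F F' : ℤ) ≠ 0 := by
    have : 0 < Module.finrank F F' := Module.finrank_pos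
    exact_mod_cast this.ne'
  exact (mul_eq_zero.1 h1.symm).resolve_left hn

end Fermat.Agent.S37x.FFk.H19
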