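import Fermat.Agent.S37x.FFk.H19_RedDeg
import Fermat.Agent.S37x.FFk.H19_Gen
import Fermat.Agent.S37x.Asm.DefsDesc
import Fermat.Agent.S37x.FFL.H9_Deg
import Fermat.Agent.S18x.Desc.H19_InstK
import Fermat.Agent.S18x.Desc.H19_LevelAt
import Fermat.Agent.S18x.IG.H10_SepJ

/-!
# S37 [FFk] (helper19): `Asm.StFFk N M A h` verbatim

Function-field theory of `F̄_M / F̄_N` over `k = ResidueField A` (characteristic `ℓ`), `N ∣ M`,
`ℓ ∤ M`:

* `h19_incK_isIntegral`, `h19_incK_finite`, `h19_incK_isSeparable` : `F̄_M / F̄_N` is integral,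
  finite, separable (tower over `k(j̄)`, helper10's separability over `k(j̄)`);
* `h19_finrankAlong_incK` : `finrankAlong k incK = relfinrank F̄_N F̄_M`;
* `h19_finrankAlong_eq` : `finrankAlong k incK = finrankAlong ℚ̄ incL`;
* `h19_stFFk` : `Asm.StFFk N M A h` from `HasPrincipalDivisors k F̄_M`;
* `h19_stFFk_of_red` : `Asm.StFFk N M A h` from a place reduction at level `M`.
-/

set_option autoImplicit false
set_option linter.style.haveILetI false
set_option linter.unusedSectionVars false
set_option synthInstance.maxHeartbeats 400000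
set_option maxHeartbeats 1000000

open HahnSeries AlgebraicCurve IntermediateField ModularCurve

noncomputable section

namespace Fermat.Agent.S37x.FFk.H19

section Generic

variable {K E : Type*} [Field K] [Field E] [Algebra K E]

/-- The degree along an inclusion of intermediate fields is the relative degree. -/
theorem h19_finrankAlong_inclusion {F G : IntermediateField K E} (h : F ≤ G) :
    finrankAlong K (IntermediateField.inclusion h) = relfinrank F G := by
  rw [relfinrank_eq_finrank_of_le h]
  unfold finrankAlong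
  letI := algebraAlong (IntermediateField.inclusion h)
  refine LinearEquiv.finrank_eq
    { toFun := fun x => ⟨x.1, (mem_extendScalars h).mpr x.2⟩
      invFun := fun x => ⟨x.1, (mem_extendScalars h).mp x.2⟩
      left_inv := fun x => rfl
      right_inv := fun x => rfl
      map_add' := fun x y => rfl
      map_smul' := fun c x => rfl }

end Generic

section Full

variable (k : Type) [Field k] (N M : ℕ) [NeZero N] [NeZero M] (h : N ∣ M)

/-- `F̄_M` is integral over `F̄_N` along `incK`. -/
theorem h19_incK_isIntegral : (Asm.incK N M k h).toRingHom.IsIntegral := by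
  have H := Fermat.Agent.S18x.Desc.H19.h19_full_isIntegral (N := N) (M := M) k h
  intro x
  exact H.isIntegral x

/-- elements of `k(j̄) ⊆ F̄_M` lie in `F̄_N`. -/
theorem h19_kj_mem (c : ↥(IntermediateField.adjoin k {Fermat.Agent.S28.Asm.jbFull k M})) :
    ((c : ↥(modularFunctionFieldFullC k M)) : LaurentSeries k) ∈
      modularFunctionFieldFullC k N := by
  have h2 : (IntermediateField.adjoin k {Fermat.Agent.S28.Asm.jbFull k M}).map
      (modularFunctionFieldFullC k M).val = IntermediateField.adjoin k
        {((Fermat.Agent.S28.Asm.jbFull k M : ↥(modularFunctionFieldFullC k M)) :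
          LaurentSeries k)} := by
    rw [IntermediateField.adjoin_map, Set.image_singleton]
    rfl
  have h3 : ((c : ↥(modularFunctionFieldFullC k M)) : LaurentSeries k) ∈
      (IntermediateField.adjoin k {Fermat.Agent.S28.Asm.jbFull k M}).map
        (modularFunctionFieldFullC k M).val := ⟨_, c.2, rfl⟩
  rw [h2] at h3
  have h4 : IntermediateField.adjoin k
      {((Fermat.Agent.S28.Asm.jbFull k M : ↥(modularFunctionFieldFullC k M)) :
        LaurentSeries k)} ≤ modularFunctionFieldFullC k N := by
    rw [adjoin_le_iff]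
    rintro y rfl
    exact jqModC_mem_full k N
  exact h4 h3

/-- the ring homomorphism `k(j̄) → F̄_N`. -/
def h19KjHom : ↥(IntermediateField.adjoin k {Fermat.Agent.S28.Asm.jbFull k M}) →+*
    ↥(modularFunctionFieldFullC k N) where
  toFun c := ⟨((c : ↥(modularFunctionFieldFullC k M)) : LaurentSeries k), h19_kj_mem k N M c⟩
  map_one' := rfl
  map_mul' _ _ := rfl
  map_zero' := rfl
  map_add' _ _ := rfl

/-- `F̄_M` is finite over `F̄_N` along `incK`. -/
theorem h19_incK_finite : FiniteAlong k (Asm.incK N M k h) := by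
  unfold FiniteAlong
  letI a2 : Algebra ↥(modularFunctionFieldFullC k N) ↥(modularFunctionFieldFullC k M) :=
    algebraAlong (Asm.incK N M k h)
  letI a1 : Algebra ↥(IntermediateField.adjoin k {Fermat.Agent.S28.Asm.jbFull k M})
      ↥(modularFunctionFieldFullC k N) := (h19KjHom k N M).toAlgebra
  haveI : IsScalarTower ↥(IntermediateField.adjoin k {Fermat.Agent.S28.Asm.jbFull k M})
      ↥(modularFunctionFieldFullC k N) ↥(modularFunctionFieldFullC k M) :=
    IsScalarTower.of_algebraMap_eq fun c => rfl
  haveI := Fermat.Agent.S18x.E.H29.finDimC k M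
  exact Module.Finite.of_restrictScalars_finite
    ↥(IntermediateField.adjoin k {Fermat.Agent.S28.Asm.jbFull k M})
    ↥(modularFunctionFieldFullC k N) ↥(modularFunctionFieldFullC k M)

/-- `F̄_M` is separable over `F̄_N` along `incK` (`k` perfect of characteristic `p`). -/
theorem h19_incK_isSeparable (p : ℕ) [Fact p.Prime] [CharP k p] [PerfectRing k p] :
    letI := algebraAlong (Asm.incK N M k h)
    Algebra.IsSeparable ↥(modularFunctionFieldFullC k N) ↥(modularFunctionFieldFullC k M) := by
  letI a2 : Algebra ↥(modularFunctionFieldFullC k N) ↥(modularFunctionFieldFullC k M) :=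
    algebraAlong (Asm.incK N M k h)
  letI a1 : Algebra ↥(IntermediateField.adjoin k {Fermat.Agent.S28.Asm.jbFull k M})
      ↥(modularFunctionFieldFullC k N) := (h19KjHom k N M).toAlgebra
  haveI : IsScalarTower ↥(IntermediateField.adjoin k {Fermat.Agent.S28.Asm.jbFull k M})
      ↥(modularFunctionFieldFullC k N) ↥(modularFunctionFieldFullC k M) :=
    IsScalarTower.of_algebraMap_eq fun c => rfl
  haveI := Fermat.Agent.S18x.IG.H10.h10_isSeparable_full k p M
    (Fermat.Agent.S18x.E.H29.finDimC k M)
  exact Algebra.isSeparable_tower_top_of_isSeparable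
    ↥(IntermediateField.adjoin k {Fermat.Agent.S28.Asm.jbFull k M})
    ↥(modularFunctionFieldFullC k N) ↥(modularFunctionFieldFullC k M)

/-- The degree along `incK` is the relative degree inside `k((q))`. -/
theorem h19_finrankAlong_incK :
    finrankAlong k (Asm.incK N M k h) =
      relfinrank (modularFunctionFieldFullC k N) (modularFunctionFieldFullC k M) :=
  h19_finrankAlong_inclusion (full_degeneracyC_le k h)

end Full

section Res

variable (A : ValuationSubring (AlgebraicClosure ℚ)) {ℓ : ℕ} (hℓ : ℓ.Prime)
  (hA : A.LiesOverPrime ℓ) (N M : ℕ) [NeZero N] [NeZero M] (h : N ∣ M) (hℓM : ¬ ℓ ∣ M)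

include hℓ hA hℓM in
/-- **The degrees in characteristic `ℓ` and `0` agree**, `ℓ ∤ M`. -/
theorem h19_finrankAlong_eq :
    finrankAlong (IsLocalRing.ResidueField A) (Asm.incK N M (IsLocalRing.ResidueField A) h) =
      finrankAlong (AlgebraicClosure ℚ) (Asm.incL N M h) := by
  haveI : Fact ℓ.Prime := ⟨hℓ⟩
  haveI : CharP (IsLocalRing.ResidueField A) ℓ := h19_charP_res A hℓ hA
  rw [h19_finrankAlong_incK, Fermat.Agent.S37x.FFL.H9.h9_finrankAlong_incL N M h]
  have h1 := (Fermat.Agent.S18x.Desc.H19.h19_relfinrank_eq (AlgebraicClosure ℚ)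
    (IsLocalRing.ResidueField A) ℓ h hℓM).1
  rw [h1]
  have e1 := Fermat.Agent.S18x.Desc.H19.h19_bar_eq N
  have e2 := Fermat.Agent.S18x.Desc.H19.h19_bar_eq M
  rw [e1, e2]

include hℓ hA hℓM in
/-- **[FFk]** `Asm.StFFk N M A h`, verbatim, from `HasPrincipalDivisors k F̄_M`. -/
theorem h19_stFFk
    [hpd : HasPrincipalDivisors (IsLocalRing.ResidueField A)
      (modularFunctionFieldFullC (IsLocalRing.ResidueField A) M)] :
    Fermat.Agent.S37x.Asm.StFFk N M A h := by
  haveI : Fact ℓ.Prime := ⟨hℓ⟩
  haveI : CharP (IsLocalRing.ResidueField A) ℓ := h19_charP_res A hℓ hA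
  haveI : IsAlgClosed (IsLocalRing.ResidueField A) := h19_isAlgClosed_res A
  haveI : PerfectRing (IsLocalRing.ResidueField A) ℓ := inferInstance
  have hint := h19_incK_isIntegral (IsLocalRing.ResidueField A) N M h
  have hfin := h19_incK_finite (IsLocalRing.ResidueField A) N M h
  have hsep := h19_incK_isSeparable (IsLocalRing.ResidueField A) N M h ℓ
  -- principal divisors at level `N`
  have hpdN : HasPrincipalDivisors (IsLocalRing.ResidueField A)
      (modularFunctionFieldFullC (IsLocalRing.ResidueField A) N) := by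
    letI := algebraAlong (Asm.incK N M (IsLocalRing.ResidueField A) h)
    haveI := isScalarTower_along (Asm.incK N M (IsLocalRing.ResidueField A) h)
    haveI : Module.Finite ↥(modularFunctionFieldFullC (IsLocalRing.ResidueField A) N)
      ↥(modularFunctionFieldFullC (IsLocalRing.ResidueField A) M) := hfin
    haveI : Algebra.IsSeparable ↥(modularFunctionFieldFullC (IsLocalRing.ResidueField A) N)
      ↥(modularFunctionFieldFullC (IsLocalRing.ResidueField A) M) := hsep
    exact h19_hasPrincipalDivisors_down
      (F' := ↥(modularFunctionFieldFullC (IsLocalRing.ResidueField A) M))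
  refine ⟨hint, hpd, hpdN, ?_, ?_, ?_, ?_⟩
  · exact Fermat.Agent.S37x.FF.H23.h23_fundamentalIdentityAlong_of_isSeparable _ hint hfin hsep
  · exact h19_finrankAlong_eq A hℓ hA N M h hℓM
  · exact fun Q => h19_deg_eq_one_res A M Q
  · intro Q
    refine ⟨h19_deg_eq_one_res A N Q, ?_⟩
    letI := algebraAlong (Asm.incK N M (IsLocalRing.ResidueField A) h)
    haveI := isScalarTower_along (Asm.incK N M (IsLocalRing.ResidueField A) h)
    haveI : Module.Finite ↥(modularFunctionFieldFullC (IsLocalRing.ResidueField A) N)
      ↥(modularFunctionFieldFullC (IsLocalRing.ResidueField A) M) := hfin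
    haveI : Algebra.IsSeparable ↥(modularFunctionFieldFullC (IsLocalRing.ResidueField A) N)
      ↥(modularFunctionFieldFullC (IsLocalRing.ResidueField A) M) := hsep
    obtain ⟨w, hw⟩ := h19_exists_place_above
      (F' := ↥(modularFunctionFieldFullC (IsLocalRing.ResidueField A) M)) Q
    exact ⟨w, hw⟩

include hℓ hA hℓM in
/-- **[FFk]** `Asm.StFFk N M A h` from a place reduction at level `M`. -/
theorem h19_stFFk_of_red (hr : ∃ r, IsPlaceReductionModL A M r) :
    Fermat.Agent.S37x.Asm.StFFk N M A h := by
  haveI := h19_hasPrincipalDivisors_of_red hr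
  exact h19_stFFk A hℓ hA N M h hℓM

include hℓ hA hℓM in
/-- **[FFk]** `Asm.StFFk N M A h` from `Asm.StRedOne M A`. -/
theorem h19_stFFk_of_redOne (hM : Fermat.Agent.S37x.Asm.StRedOne M A) :
    Fermat.Agent.S37x.Asm.StFFk N M A h := by
  obtain ⟨r, hr, -, -⟩ := hM
  exact h19_stFFk_of_red A hℓ hA N M h hℓM ⟨r, hr⟩

end Res

end Fermat.Agent.S37x.FFk.H19
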