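import Mathlib
import Fermat.Prelude.Def_AlgebraicCurve_DivisorClassGroup
import Fermat.Agent.S18x.E.H29_Const

/-!
# S37 [FFk] (helper19), part 1: residue fields

* `h19_isAlgClosed_residueField` : the residue field of a valuation subring of an algebraically
  closed field is algebraically closed;
* `h19_deg_eq_one` : in a function field of one variable over an algebraically closed field `k`
  (any characteristic) every place has degree one;
* `h19_residue_surjective` : the residue field of such a place is `k`.
-/

set_option autoImplicit false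
set_option linter.style.haveILetI false
set_option linter.unusedSectionVars false

open AlgebraicCurve IntermediateField Polynomial

noncomputable section

namespace Fermat.Agent.S37x.FFk.H19

section ResidueField

variable {L : Type*} [Field L] [IsAlgClosed L] (A : ValuationSubring L)

/-- The residue field of a valuation subring of an algebraically closed field is algebraically
closed. -/
theorem h19_isAlgClosed_residueField : IsAlgClosed (IsLocalRing.ResidueField A) := by
  refine IsAlgClosed.of_exists_root _ fun p hpm hpi => ?_
  -- lift `p` to a monic polynomial over `A`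
  obtain ⟨P, hP, hPm⟩ : ∃ P : A[X], P.map (IsLocalRing.residue A) = p ∧ P.Monic := by
    have hs : Function.Surjective (IsLocalRing.residue A) := IsLocalRing.residue_surjective
    obtain ⟨P, hP, hdeg, hmon⟩ := Polynomial.lifts_and_degree_eq_and_monic
      ((Polynomial.mem_lifts p).2 (Polynomial.map_surjective _ hs p)) hpm
    exact ⟨P, hP, hmon⟩
  have hdeg : (P.map A.subtype).degree ≠ 0 := by
    rw [Polynomial.degree_map_eq_of_injective A.subtype_injective]
    have h1 : P.degree = p.degree := by
      rw [← hP, hPm.degree_map]
    rw [h1]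
    exact (Polynomial.degree_pos_of_irreducible hpi).ne'
  obtain ⟨x, hx⟩ := IsAlgClosed.exists_root (P.map A.subtype) hdeg
  -- the root is integral over `A`, hence in `A`
  have hint : IsIntegral A x := ⟨P, hPm, by
    rw [Polynomial.IsRoot, Polynomial.eval_map] at hx
    exact hx⟩
  obtain ⟨y, rfl⟩ := IsIntegrallyClosed.isIntegral_iff.1 hint
  refine ⟨IsLocalRing.residue A y, ?_⟩
  rw [← hP, Polynomial.eval_map, Polynomial.eval₂_hom]
  have h0 : P.eval y = 0 := by
    rw [Polynomial.IsRoot, Polynomial.eval_map] at hx
    have h1 : Polynomial.eval₂ A.subtype (A.subtype y) P = 0 := hx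
    rw [Polynomial.eval₂_hom] at h1
    apply A.subtype_injective
    rw [map_zero]
    exact h1
  rw [h0, map_zero]

end ResidueField

section Deg

variable {k F : Type*} [Field k] [Field F] [Algebra k F]

/-- A valuation subring containing `k(u)`, with `F` algebraic over `k(u)`, is `⊤`. -/
theorem h19_eq_top_of_adjoin_le (V : ValuationSubring F) (u : F)
    [Algebra.IsAlgebraic k⟮u⟯ F] (hV : ∀ x ∈ k⟮u⟯, x ∈ V) : V = ⊤ := by
  refine SetLike.ext fun x => ⟨fun _ => ValuationSubring.mem_top x, fun _ => ?_⟩
  have hx : IsIntegral k⟮u⟯ x := (Algebra.IsAlgebraic.isAlgebraic x).isIntegral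
  obtain ⟨p, hpm, hp⟩ := hx
  let φ : k⟮u⟯ →+* V :=
    { toFun := fun c => ⟨(c : F), hV _ c.2⟩
      map_one' := rfl
      map_mul' := fun _ _ => rfl
      map_zero' := rfl
      map_add' := fun _ _ => rfl }
  have hint : IsIntegral V x := by
    refine ⟨p.map φ, hpm.map φ, ?_⟩
    rw [Polynomial.eval₂_map]
    exact hp
  obtain ⟨y, rfl⟩ := IsIntegrallyClosed.isIntegral_iff.1 hint
  exact y.2

variable [IsAlgClosed k]

/-- **The residue field of a place of a function field of one variable over an algebraically
closed field `k` is `k`** (any characteristic). -/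
theorem h19_residue_surjective (t : F) (ht : Transcendental k t) [FiniteDimensional k⟮t⟯ F]
    (v : Place k F) : Function.Surjective (algebraMap k v.ResidueField) := by
  intro ubar
  obtain ⟨u, rfl⟩ := IsLocalRing.residue_surjective ubar
  by_contra hne
  -- the residue of `u` is transcendental over `k`
  have htr : Transcendental k (IsLocalRing.residue v.toValuationSubring u) := by
    intro halg
    apply hne
    have hint : IsIntegral k (IsLocalRing.residue v.toValuationSubring u) := halg.isIntegral
    have hirr := minpoly.irreducible hint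
    have hdeg := IsAlgClosed.degree_eq_one_of_irreducible k hirr
    obtain ⟨c, hc⟩ := minpoly.mem_range_of_degree_eq_one k _ hdeg
    exact ⟨c, hc⟩
  -- polynomials in `u` reduce to polynomials in the residue
  have hres : ∀ P : k[X], ∃ h : aeval (u : F) P ∈ v.toValuationSubring,
      IsLocalRing.residue v.toValuationSubring ⟨aeval (u : F) P, h⟩ =
        aeval (IsLocalRing.residue v.toValuationSubring u) P := by
    intro P
    have h1 : aeval (u : F) P = ((aeval u P : v.toValuationSubring) : F) := by
      rw [← Subring.coe_subtype, ← ValuationSubring.subtype_apply]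
      exact (Polynomial.aeval_algebraMap_apply F u P)
    refine ⟨h1 ▸ (aeval u P : v.toValuationSubring).2, ?_⟩
    have h2 : (⟨aeval (u : F) P, h1 ▸ (aeval u P : v.toValuationSubring).2⟩ :
        v.toValuationSubring) = aeval u P := Subtype.ext h1
    rw [h2]
    exact (Polynomial.aeval_algHom_apply
      (IsScalarTower.toAlgHom k v.toValuationSubring v.ResidueField) u P).symm ▸ rfl
  -- `u` is transcendental over `k`
  have hutr : Transcendental k (u : F) := by
    rintro ⟨P, hP0, hP⟩
    obtain ⟨h, hr⟩ := hres P
    apply htr
    refine ⟨P, hP0, ?_⟩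
    rw [← hr]
    have : (⟨aeval (u : F) P, h⟩ : v.toValuationSubring) = 0 := Subtype.ext hP
    rw [this, map_zero]
  -- `k(u) ⊆ O_v`
  have hle : ∀ x ∈ k⟮(u : F)⟯, x ∈ v.toValuationSubring := by
    intro x hx
    obtain ⟨P, Q, rfl⟩ := (IntermediateField.mem_adjoin_simple_iff k x).1 hx
    obtain ⟨hPm, -⟩ := hres P
    by_cases hQ0 : Q = 0
    · rw [hQ0, map_zero, div_zero]
      exact zero_mem _
    obtain ⟨hQm, hQr⟩ := hres Q
    have hQu : IsUnit (⟨aeval (u : F) Q, hQm⟩ : v.toValuationSubring) := by
      rw [← IsLocalRing.residue_ne_zero_iff_isUnit, hQr]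
      intro h0
      exact htr ⟨Q, hQ0, h0⟩
    obtain ⟨b, hb⟩ := isUnit_iff_exists_inv.1 hQu
    have hb' : aeval (u : F) Q * (b : F) = 1 := congrArg Subtype.val hb
    have hinv : (aeval (u : F) Q)⁻¹ = (b : F) := (eq_inv_of_mul_eq_one_right hb').symm
    rw [div_eq_mul_inv, hinv]
    exact mul_mem hPm b.2
  haveI : FiniteDimensional k⟮(u : F)⟯ F :=
    Fermat.Agent.S18x.E.H29.finiteDimensional_adjoin_of_transcendental ht hutr
  exact v.ne_top' (h19_eq_top_of_adjoin_le v.toValuationSubring (u : F) hle)

/-- **Every place has degree one.** -/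
theorem h19_deg_eq_one (t : F) (ht : Transcendental k t) [FiniteDimensional k⟮t⟯ F]
    (v : Place k F) : v.deg = 1 := by
  unfold Place.deg
  have e : k ≃ₗ[k] v.ResidueField :=
    LinearEquiv.ofBijective (Algebra.linearMap k _)
      ⟨(algebraMap k _).injective, h19_residue_surjective t ht v⟩
  rw [← e.finrank_eq, Module.finrank_self]

end Deg

end Fermat.Agent.S37x.FFk.H19
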